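/-
Project BAD, layer CORE (architect helper98): the abstract situation "level `q²` over level `q`".

`F₂ ⊇ F₁` through two embeddings `α`, `β` (degeneracy maps `f(z) ↦ f(z)`, `f(z) ↦ f(qz)`).
Vertical valuations: `V∞, V0` of `F₁`, `W20, W11, W02` of `F₂`, with the table
```
            over V∞                         over V0
  via α :   W20 (e=f=1), W11 (e=q-1,f=1)    W02 (e=1, f=q purely inseparable)
  via β :   W20 (e=1, f=q purely insep.)    W11 (e=q-1,f=1), W02 (e=f=1)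
```
The table only enters through the norm formulas `ord_*`, `norm_*` below.
-/
import Fermat.Agent.BAD.Defs

set_option autoImplicit false

namespace Fermat.Agent.BAD

/-- A point `O` of level `q²` through which all three components pass, together with what is
needed about its images at level `q`. -/
structure TriplePoint {F₁ F₂ : Type*} [Field F₁] [Field F₂] (α β : F₁ →+* F₂)
    (Vi V0 : ValuationSubring F₁) (W20 W11 W02 : ValuationSubring F₂)
    (P₁ : Set (LocalSubring F₁)) (O : LocalSubring F₂) : Prop where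
  through20 : Through W20 O
  through11 : Through W11 O
  through02 : Through W02 O
  /-- the image of `O` under the degeneracy map `α` is a crossing point of level `q`, and `O` is the
  only point above it (so that norms of units are units) -/
  alpha : ∃ O₁ ∈ P₁, O₁.toSubring = O.toSubring.comap α ∧ Through Vi O₁ ∧ Through V0 O₁ ∧
    ∀ υ : F₂, UnitIn O.toSubring υ → UnitIn O₁.toSubring (normAlong α υ)
  beta : ∃ O₁ ∈ P₁, O₁.toSubring = O.toSubring.comap β ∧ Through Vi O₁ ∧ Through V0 O₁ ∧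
    ∀ υ : F₂, UnitIn O.toSubring υ → UnitIn O₁.toSubring (normAlong β υ)

/-- All the hypotheses of the abstract theorem. -/
structure CoreHyp {K F₁ F₂ : Type*} [Field K] [Field F₁] [Field F₂] [Algebra K F₁] [Algebra K F₂]
    (A : ValuationSubring K) (q n : ℕ) (α β : F₁ →ₐ[K] F₂)
    (Vi V0 : ValuationSubring F₁) (W20 W11 W02 : ValuationSubring F₂)
    (oi : Ord Vi) (o0 : Ord V0) (o20 : Ord W20) (o11 : Ord W11) (o02 : Ord W02)
    (P₁ : Set (LocalSubring F₁)) (P₂ : Set (LocalSubring F₂)) : Prop where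
  -- the base
  q_prime : q.Prime
  coprime : Nat.Coprime q n
  n_pos : 0 < n
  /-- `q` is a uniformiser of `A` -/
  q_mem : (q : K) ∈ A.nonunits
  unif : ∀ x ∈ A.nonunits, x / (q : K) ∈ A
  /-- every unit of `A` is an `n`-th power -/
  hens : ∀ c : K, IsU A c → ∃ d : K, IsU A d ∧ c = d ^ n
  roots : ∃ ζ : K, IsPrimitiveRoot ζ n
  -- the valuations
  finite_alpha : letI := (α : F₁ →+* F₂).toAlgebra; FiniteDimensional F₁ F₂
  finite_beta : letI := (β : F₁ →+* F₂).toAlgebra; FiniteDimensional F₁ F₂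
  comap_Vi : Vi.comap (algebraMap K F₁) = A
  comap_V0 : V0.comap (algebraMap K F₁) = A
  oi_q : oi.ord (q : F₁) = 1
  o0_q : o0.ord (q : F₁) = 1
  o20_q : o20.ord (q : F₂) = 1
  o11_q : o11.ord (q : F₂) = (q : ℤ) - 1
  o02_q : o02.ord (q : F₂) = 1
  comap_alpha_20 : W20.comap (α : F₁ →+* F₂) = Vi
  comap_alpha_11 : W11.comap (α : F₁ →+* F₂) = Vi
  comap_alpha_02 : W02.comap (α : F₁ →+* F₂) = V0
  comap_beta_20 : W20.comap (β : F₁ →+* F₂) = Vi
  comap_beta_11 : W11.comap (β : F₁ →+* F₂) = V0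
  comap_beta_02 : W02.comap (β : F₁ →+* F₂) = V0
  /-- weak approximation (orders) -/
  approx_ord : ∀ b20 b11 b02 : ℤ, ∃ g : F₂, g ≠ 0 ∧ o20.ord g = b20 ∧ o11.ord g = b11 ∧
    o02.ord g = b02
  /-- weak approximation (residues) -/
  approx_res : ∀ s20 s11 s02 : F₂, ∃ g : F₂, Cong W20 g s20 ∧ Cong W11 g s11 ∧ Cong W02 g s02
  /-- residue degree one -/
  res_alpha_20 : ∀ y : F₂, IsU W20 y → ∃ x : F₁, Cong W20 y (α x)
  res_alpha_11 : ∀ y : F₂, IsU W11 y → ∃ x : F₁, Cong W11 y (α x)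
  res_beta_11 : ∀ y : F₂, IsU W11 y → ∃ x : F₁, Cong W11 y (β x)
  res_beta_02 : ∀ y : F₂, IsU W02 y → ∃ x : F₁, Cong W02 y (β x)
  -- the norm formulas
  ord_alpha_i : ∀ u : F₂, u ≠ 0 → oi.ord (normAlong (α : F₁ →+* F₂) u) = o20.ord u + o11.ord u
  ord_alpha_0 : ∀ u : F₂, u ≠ 0 → o0.ord (normAlong (α : F₁ →+* F₂) u) = q * o02.ord u
  ord_beta_i : ∀ u : F₂, u ≠ 0 → oi.ord (normAlong (β : F₁ →+* F₂) u) = q * o20.ord u
  ord_beta_0 : ∀ u : F₂, u ≠ 0 → o0.ord (normAlong (β : F₁ →+* F₂) u) = o11.ord u + o02.ord u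
  norm_alpha_i : ∀ (u : F₂) (x20 x11 : F₁), IsU W20 u → IsU W11 u → Cong W20 u (α x20) →
    Cong W11 u (α x11) → Cong Vi (normAlong (α : F₁ →+* F₂) u) (x20 * x11 ^ (q - 1))
  norm_alpha_0 : ∀ u : F₂, IsU W02 u → Cong W02 (α (normAlong (α : F₁ →+* F₂) u)) (u ^ q)
  norm_beta_i : ∀ u : F₂, IsU W20 u → Cong W20 (β (normAlong (β : F₁ →+* F₂) u)) (u ^ q)
  norm_beta_0 : ∀ (u : F₂) (x11 x02 : F₁), IsU W11 u → IsU W02 u → Cong W11 u (β x11) →
    Cong W02 u (β x02) → Cong V0 (normAlong (β : F₁ →+* F₂) u) (x11 ^ (q - 1) * x02)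
  -- the points
  const_mem₁ : ∀ O ∈ P₁, ∀ a ∈ A, algebraMap K F₁ a ∈ O.toSubring
  const_mem₂ : ∀ O ∈ P₂, ∀ a ∈ A, algebraMap K F₂ a ∈ O.toSubring
  /-- the local rings of level `q` are closed under `n`-th roots (normality) -/
  root₁ : ∀ O ∈ P₁, ∀ y : F₁, y ^ n ∈ O.toSubring → y ∈ O.toSubring
  branch_i : ∀ O ∈ P₁, Through Vi O → Branch Vi O
  branch_0 : ∀ O ∈ P₁, Through V0 O → Branch V0 O
  branch_20 : ∀ O ∈ P₂, Through W20 O → Branch W20 O
  branch_11 : ∀ O ∈ P₂, Through W11 O → Branch W11 O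
  branch_02 : ∀ O ∈ P₂, Through W02 O → Branch W02 O
  /-- local factoriality -/
  fact : ∀ O ∈ P₂, ∀ u : F₂, u ≠ 0 → HDiv K n u →
    (∀ W ∈ ({W20, W11, W02} : Set (ValuationSubring F₂)), Through W O → IsU W u) →
    ∃ h : F₂, h ≠ 0 ∧ UnitIn O.toSubring (u / h ^ n)
  /-- incidence: a point lies on one component, or it is a triple point -/
  incidence : ∀ O ∈ P₂,
    (∀ W ∈ ({W20, W11, W02} : Set (ValuationSubring F₂)),
      ∀ W' ∈ ({W20, W11, W02} : Set (ValuationSubring F₂)), Through W O → Through W' O → W = W') ∨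
    TriplePoint (α : F₁ →+* F₂) (β : F₁ →+* F₂) Vi V0 W20 W11 W02 P₁ O
  /-- injectivity: trivial residues and trivial gluing data imply triviality (layer INJ) -/
  inj : ∀ u : F₂, u ≠ 0 → HDiv K n u →
    (∀ W ∈ ({W20, W11, W02} : Set (ValuationSubring F₂)), Cong W u 1) →
    (∀ O ∈ P₂, LocTriv {W20, W11, W02} n u O) → KPow K n u

end Fermat.Agent.BAD
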